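/-
GATE-B / GB-B5-GLUE, abstract descent for `hannO` (helper78, answer to helper35 6439).

`V` = the parabolic classes `Hom_par(Γ_H, O)` carrying the twisted Hecke operator `TV = tw_O t` and
the diamonds `dV j`; `P` = the `𝔪`-primary summand (e.g. `(bigLevel …).M`) with its realisation
`ι : P ↪ V`; `M` = a coinvariant quotient of `P` (`tw.Lχ.M`, `tw.L1.M`) with `π : P ↠ M`, carrying
`TM = a (chi t)` and the induced diamonds `dM j`.  If the relation
`TV ∘ (n − ∑_{j ∈ s} dV j) = 0` holds on `V` (output of `Transfer.tw_sub_sum_dia_eq_zero_of_complex`)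
and `∑_{j ∈ s} dM j` maps `M` into a `TM`-stable submodule `W` with `M / W` `n`-torsion-free, then
`TM` maps `M` into `W`.

* `relation_on_P`, `relation_on_M` : the relation descends along `ι` (injective) and `π` (onto);
* `mem_of_transfer` : the conclusion `∀ m, TM m ∈ W`;
* `eq_zero_of_transfer` : the case `W = ⊥` (`hnu` on `M^χ`: `∑_δ c(δ) = 0`).
-/
import Mathlib

set_option autoImplicit false
set_option linter.unusedSectionVars false

namespace Fermat.Agent.GB.B5.Glue.HannAbs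

variable {O : Type*} [CommRing O] {P V M : Type*} [AddCommGroup P] [Module O P]
  [AddCommGroup V] [Module O V] [AddCommGroup M] [Module O M]
  (ι : P →ₗ[O] V) (π : P →ₗ[O] M)
  (TV : V →ₗ[O] V) (TP : P →ₗ[O] P) (TM : M →ₗ[O] M)
  {J : Type*} (s : Finset J) (dV : J → V →ₗ[O] V) (dP : J → P →ₗ[O] P) (dM : J → M →ₗ[O] M)
  (n : ℤ)

/-- the relation `TV ∘ (n − ∑ dV j) = 0` on `V` gives `TP ∘ (n − ∑ dP j) = 0` on `P`. -/
theorem relation_on_P (hι : Function.Injective ι) (hιT : ∀ x, ι (TP x) = TV (ι x))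
    (hιd : ∀ j x, ι (dP j x) = dV j (ι x))
    (h : ∀ v : V, TV (n • v - ∑ j ∈ s, dV j v) = 0) (x : P) :
    TP (n • x - ∑ j ∈ s, dP j x) = 0 := by
  apply hι
  rw [hιT, map_zero, map_sub, map_zsmul, map_sum]
  have h1 : ∑ j ∈ s, ι (dP j x) = ∑ j ∈ s, dV j (ι x) :=
    Finset.sum_congr rfl fun j _ => hιd j x
  rw [h1]
  exact h (ι x)

/-- the relation `TP ∘ (n − ∑ dP j) = 0` on `P` gives `TM ∘ (n − ∑ dM j) = 0` on `M`. -/
theorem relation_on_M (hπ : Function.Surjective π) (hπT : ∀ x, π (TP x) = TM (π x))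
    (hπd : ∀ j x, π (dP j x) = dM j (π x))
    (h : ∀ x : P, TP (n • x - ∑ j ∈ s, dP j x) = 0) (m : M) :
    TM (n • m - ∑ j ∈ s, dM j m) = 0 := by
  obtain ⟨x, rfl⟩ := hπ m
  have h1 : ∑ j ∈ s, dM j (π x) = ∑ j ∈ s, π (dP j x) :=
    Finset.sum_congr rfl fun j _ => (hπd j x).symm
  rw [h1, ← map_sum, ← map_zsmul, ← map_sub, ← hπT, h x, map_zero]

/-- **`hannO`, abstract form**: `TM` maps `M` into `W`. -/
theorem mem_of_transfer (hι : Function.Injective ι) (hπ : Function.Surjective π)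
    (hιT : ∀ x, ι (TP x) = TV (ι x)) (hπT : ∀ x, π (TP x) = TM (π x))
    (hιd : ∀ j x, ι (dP j x) = dV j (ι x)) (hπd : ∀ j x, π (dP j x) = dM j (π x))
    (W : Submodule O M) (hW : ∀ m ∈ W, TM m ∈ W) (hsum : ∀ m, ∑ j ∈ s, dM j m ∈ W)
    (htf : ∀ m : M, n • m ∈ W → m ∈ W)
    (h : ∀ v : V, TV (n • v - ∑ j ∈ s, dV j v) = 0) (m : M) : TM m ∈ W := by
  have h1 := relation_on_M π TP TM s dP dM n hπ hπT hπd
    (relation_on_P ι TV TP s dV dP n hι hιT hιd h) m
  rw [map_sub, map_zsmul, sub_eq_zero] at h1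
  apply htf
  rw [h1]
  exact hW _ (hsum m)

/-- **`hannO`, abstract form, `W = ⊥`**: if `∑ dM j = 0` on `M` and `M` is `n`-torsion-free then
`TM = 0`. -/
theorem eq_zero_of_transfer (hι : Function.Injective ι) (hπ : Function.Surjective π)
    (hιT : ∀ x, ι (TP x) = TV (ι x)) (hπT : ∀ x, π (TP x) = TM (π x))
    (hιd : ∀ j x, ι (dP j x) = dV j (ι x)) (hπd : ∀ j x, π (dP j x) = dM j (π x))
    (hsum : ∀ m, ∑ j ∈ s, dM j m = 0) (htf : ∀ m : M, n • m = 0 → m = 0)
    (h : ∀ v : V, TV (n • v - ∑ j ∈ s, dV j v) = 0) (m : M) : TM m = 0 := by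
  have h1 := mem_of_transfer ι π TV TP TM s dV dP dM n hι hπ hιT hπT hιd hπd ⊥
    (fun m hm => by rw [Submodule.mem_bot] at hm ⊢; rw [hm, map_zero])
    (fun m => by rw [Submodule.mem_bot]; exact hsum m)
    (fun m hm => by rw [Submodule.mem_bot] at hm ⊢; exact htf m hm) h m
  rwa [Submodule.mem_bot] at h1

/-- a sum of character values: if `dM j = c j • id` with `∑ c j = 0` then `∑ dM j = 0`. -/
theorem sum_eq_zero_of_char (c : J → O) (hc : ∑ j ∈ s, c j = 0)
    (hd : ∀ j (m : M), dM j m = c j • m) (m : M) : ∑ j ∈ s, dM j m = 0 := by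
  have h1 : ∑ j ∈ s, dM j m = ∑ j ∈ s, c j • m := Finset.sum_congr rfl fun j _ => hd j m
  rw [h1, ← Finset.sum_smul, hc, zero_smul]

end Fermat.Agent.GB.B5.Glue.HannAbs
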