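/-
GATE-B / GB-B5-GLUE-HNU (helper35), file 1: **the GLUE from B5 to the `hnu` binder**, abstract
(Galois / linear-algebra) half.

Consumers: `hnu` of `GB/B9/AlgHypKill2.Kill2Handle`, `GB/B9/Kill2Level.kill₂_of_handle(')`,
`GB/B9/LevelMulti.nonempty_TWInput_multi`, `GB/Local/Multi/Kill2R5.kill₂_R5`:

  `∀ i : Idx O (Tchi a₂), ((S last).map (phi a₂ i) - 1) ^ 2 = 0 → (S last).map (phi a₂ i) = 1`.

Mechanism (board 6118 / 6305): `S last` is the matrix of `ρ_Q(τ₀)` for a tame generator `τ₀` at a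
place `P ∣ q`.  At a DVR point `x = phi a₂ i` of `T^χ_Q`:
`(S_x - 1)² = 0` ⟹ `charpoly S_x = (X - 1)²` ⟹ `charpoly ρ_x(τ₀) = (X - 1)²`
⟹ (helper67 `IsTameGenerator.charpoly_eq_of_charpoly_eq`) `ρ_x` unipotent on `I_P`
⟹ (conjugacy of the places over `q`) `ρ_x.IsUnipotentOnInertiaAt q`
⟹ `False` by B5 + S36PLUS (the newform companion of the point has `q`-exponent `2`).
So `hnu` holds VACUOUSLY at every point; the only input is

  `hB5 : ∀ i, ¬ (ρ.baseChangeAlong (phi a₂ i) _).IsUnipotentOnInertiaAt q`.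

* `charpoly_eq_of_sub_one_sq_eq_zero` : `2 × 2` over a domain, `(A - 1)² = 0 ⟹ charpoly = (X - 1)²`;
* `sub_mem_smul_top_baseChangeAlong` : residual unramifiedness passes to `baseChangeAlong`;
* `charpoly_conj` : `charpoly ρ(g σ g⁻¹) = charpoly ρ(σ)`;
* `isUnipotentOnInertiaAt_of_tameGenerator` : unipotence at ALL places over `q` from the generator
  at ONE place;
* `isLocalHom_phi` : the DVR points `phi a₂ i` are local homomorphisms;
* `isUnipotent_of_sq_zero_at_point`, **`hnu_of_not_isUnipotent`** : the glue.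
-/
import Mathlib
import Fermat.Agent.GB.E2.TameGenAdic
import Fermat.Agent.GP.Loc.PlaceConj
import Fermat.Agent.GB.Local.Multi.Kill2Q
import Fermat.Agent.S54.Formal

set_option autoImplicit false
set_option linter.unusedSectionVars false
set_option linter.unusedVariables false
set_option linter.style.haveILetI false

open Polynomial IsLocalRing
open scoped TensorProduct Pointwise

namespace Fermat.Agent.GB.B5.Glue.Hnu

open Fermat.Agent.Common_helper32
open Fermat.Agent.GB.E2.TameGenAdic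
open Fermat.Agent.GB.Local.Multi.Kill2Field Fermat.Agent.GB.Local.Multi.Kill2Q
open Fermat.Agent.GB.Glue.Points

/-! ### linear algebra -/

/-- a `2 × 2` matrix over a domain with `(A - 1)² = 0` has characteristic polynomial
`(X - 1)²`. -/
theorem charpoly_eq_of_sub_one_sq_eq_zero {R : Type*} [CommRing R] [IsDomain R]
    (A : Matrix (Fin 2) (Fin 2) R) (h : (A - 1) ^ 2 = 0) : A.charpoly = (X - 1) ^ 2 := by
  have hD : (A - 1).det = 0 := by
    have h2 : (A - 1).det ^ 2 = 0 := by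
      rw [← Matrix.det_pow, h, Matrix.det_zero]
    exact (pow_eq_zero_iff two_ne_zero).1 h2
  have hD' : (A 0 0 - 1) * (A 1 1 - 1) - A 0 1 * A 1 0 = 0 := by
    rw [Matrix.det_fin_two] at hD
    simpa using hD
  have h00 : (A 0 0 - 1) * (A 0 0 - 1) + A 0 1 * A 1 0 = 0 := by
    have := congrFun (congrFun h 0) 0
    simpa [pow_two, Matrix.mul_apply, Fin.sum_univ_two] using this
  have h11 : A 1 0 * A 0 1 + (A 1 1 - 1) * (A 1 1 - 1) = 0 := by
    have := congrFun (congrFun h 1) 1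
    simpa [pow_two, Matrix.mul_apply, Fin.sum_univ_two] using this
  have ht2 : (A 0 0 + A 1 1 - 2) ^ 2 = 0 := by linear_combination h00 + h11 + 2 * hD'
  have ht : A 0 0 + A 1 1 - 2 = 0 := (pow_eq_zero_iff two_ne_zero).1 ht2
  have e1 : A.trace = 2 := by
    rw [Matrix.trace_fin_two]
    linear_combination ht
  have e2 : A.det = 1 := by
    rw [Matrix.det_fin_two]
    linear_combination hD' + ht
  rw [Matrix.charpoly_fin_two, e1, e2, map_ofNat, map_one]
  ring

/-! ### Galois side -/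

section Galois

variable {A : Type} [CommRing A] [IsLocalRing A]

/-- residual unramifiedness of one element passes to a base change. -/
theorem sub_mem_smul_top_baseChangeAlong {B : Type} [CommRing B] [IsLocalRing B]
    (φ : A →+* B) (hφ : IsLocalHom φ) (ρ : GaloisRepAdic A) (s : GQ)
    (h : ∀ v : ρ.V, ρ.ρ s v - v ∈ maximalIdeal A • (⊤ : Submodule A ρ.V)) :
    ∀ w : (ρ.baseChangeAlong φ hφ).V,
      (ρ.baseChangeAlong φ hφ).ρ s w - w ∈
        maximalIdeal B • (⊤ : Submodule B (ρ.baseChangeAlong φ hφ).V) := by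
  letI : Algebra A B := φ.toAlgebra
  show ∀ w : B ⊗[A] ρ.V, (ρ.ρ s).baseChange B w - w ∈
    maximalIdeal B • (⊤ : Submodule B (B ⊗[A] ρ.V))
  have hmap : (maximalIdeal A).map φ ≤ maximalIdeal B :=
    Ideal.map_le_iff_le_comap.mpr fun a ha =>
      Ideal.mem_comap.mpr (haveI := hφ; map_nonunit φ a ha)
  have hpure : ∀ (b : B) (v : ρ.V),
      (ρ.ρ s).baseChange B (b ⊗ₜ[A] v) - b ⊗ₜ[A] v ∈
        maximalIdeal B • (⊤ : Submodule B (B ⊗[A] ρ.V)) := by
    intro b v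
    rw [LinearMap.baseChange_tmul, ← TensorProduct.tmul_sub]
    refine Submodule.smul_induction_on (p := fun x => b ⊗ₜ[A] x ∈
      maximalIdeal B • (⊤ : Submodule B (B ⊗[A] ρ.V))) (h v) ?_ ?_
    · intro a ha w _
      rw [TensorProduct.tmul_smul, TensorProduct.smul_tmul', Algebra.smul_def, ← smul_eq_mul,
        ← TensorProduct.smul_tmul']
      exact Submodule.smul_mem_smul (hmap (Ideal.mem_map_of_mem φ ha)) Submodule.mem_top
    · intro x y hx hy
      rw [TensorProduct.tmul_add]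
      exact Submodule.add_mem _ hx hy
  intro w
  induction w using TensorProduct.induction_on with
  | zero => rw [map_zero, sub_zero]; exact Submodule.zero_mem _
  | tmul b v => exact hpure b v
  | add x y hx hy =>
    rw [map_add, add_sub_add_comm]
    exact Submodule.add_mem _ hx hy

/-- the characteristic polynomial is a class function. -/
theorem charpoly_conj (ρ : GaloisRepAdic A) (g σ : GQ) :
    LinearMap.charpoly (ρ.ρ (g * σ * g⁻¹)) = LinearMap.charpoly (ρ.ρ σ) := by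
  have h1 : ρ.ρ g * ρ.ρ g⁻¹ = 1 := by rw [← map_mul, mul_inv_cancel, map_one]
  have h2 : ρ.ρ g⁻¹ * ρ.ρ g = 1 := by rw [← map_mul, inv_mul_cancel, map_one]
  let e : ρ.V ≃ₗ[A] ρ.V := LinearEquiv.ofLinearMap (ρ.ρ g) (ρ.ρ g⁻¹) h1 h2
  have h3 : ρ.ρ (g * σ * g⁻¹) = e.conj (ρ.ρ σ) := by
    rw [map_mul, map_mul]
    rfl
  rw [h3, LinearEquiv.charpoly_conj]

/-- **unipotence at ALL places over `q` from ONE tame generator**: if `τ₀` is a tame generator at
`P ∣ q`, `ρ` is residually unramified at `P` and `charpoly ρ(τ₀) = (X - 1)²`, then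
`ρ.IsUnipotentOnInertiaAt q`. -/
theorem isUnipotentOnInertiaAt_of_tameGenerator [IsNoetherianRing A] (ρ : GaloisRepAdic A)
    {p q : ℕ} (hp : p.Prime) (hpA : (p : A) ∈ maximalIdeal A) (hq : q.Prime)
    (P : ValuationSubring Qb) (hP : P.LiesOverPrime q) {τ₀ : GQ} (hτ₀ : IsTameGenerator P p τ₀)
    (hunr : ∀ s ∈ P.inertiaSubgroupIn ℚ, ∀ v : ρ.V,
      ρ.ρ s v - v ∈ maximalIdeal A • (⊤ : Submodule A ρ.V))
    (h1 : LinearMap.charpoly (ρ.ρ τ₀) = (X - 1) ^ 2) : ρ.IsUnipotentOnInertiaAt q := by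
  intro P' hP' σ hσ
  obtain ⟨g, rfl⟩ := Fermat.Agent.GP.Loc.PlaceConj.exists_smul_eq_of_liesOverPrime hq P P' hP hP'
  have hσ' : g⁻¹ * σ * g⁻¹⁻¹ ∈ P.inertiaSubgroupIn ℚ := by
    have h := Fermat.Agent.GC.C0.conj_mem_inertiaSubgroupIn (K := ℚ) g⁻¹ hσ
    rwa [inv_smul_smul] at h
  have h2 := hτ₀.charpoly_eq_of_charpoly_eq ρ hp hpA hunr h1 hσ'
  rwa [charpoly_conj] at h2

end Galois

/-! ### the DVR points of `T^χ` -/

section Points

variable {O : Type} [CommRing O] [IsDomain O] [IsDiscreteValuationRing O]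
  [IsAdicComplete (maximalIdeal O) O] [CharZero O]
  {T : Type} [CommRing T] [Algebra O T] [Module.Finite O T] [IsReduced T] [IsLocalRing T]
  {M : Type} [AddCommGroup M] [Module O M] [Module.IsTorsionFree O M] [Nontrivial M]
  (a₂ : T →ₐ[O] Module.End O M)

/-- the DVR points of `T^χ`, seen on `T`, are local homomorphisms. -/
theorem isLocalHom_phi (i : Idx O (Tchi a₂)) :
    IsLocalHom ((phi a₂ i : T →ₐ[O] Rq i) : T →+* Rq i) := by
  refine ⟨fun t ht => ?_⟩
  by_contra hu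
  have hm : t ∈ maximalIdeal T := (mem_maximalIdeal t).2 (mem_nonunits_iff.2 hu)
  have h1 := phi_mem a₂ i hm
  exact (mem_nonunits_iff.1 ((mem_maximalIdeal _).1 h1)) ht

/-- `p ∈ 𝔪_O ⟹ p ∈ 𝔪_{Rq i}`. -/
theorem natCast_mem_maximalIdeal_Rq {p : ℕ} (hpO : (p : O) ∈ maximalIdeal O)
    (i : Idx O (Tchi a₂)) : (p : Rq i) ∈ maximalIdeal (Rq i) := by
  have h1 : algebraMap O (Rq i) (p : O) ∈ maximalIdeal (Rq i) :=
    (mem_maximalIdeal _).2 (map_nonunit (algebraMap O (Rq i)) _ ((mem_maximalIdeal _).1 hpO))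
  rwa [map_natCast] at h1

variable (ρ : GaloisRepAdic T)

/-- **one point**: if the matrix `Sq` has the characteristic polynomial of `ρ(τ₀)` (`τ₀` a tame
generator at `P ∣ q`, `ρ` residually unramified at `P`) and `(Sq_x - 1)² = 0` at the DVR point
`x = phi a₂ i`, then `ρ ⊗_x Rq i` is unipotent on inertia at `q`. -/
theorem isUnipotent_of_sq_zero_at_point {p q : ℕ} (hp : p.Prime)
    (hpO : (p : O) ∈ maximalIdeal O) (hq : q.Prime)
    (P : ValuationSubring Qb) (hP : P.LiesOverPrime q) {τ₀ : GQ} (hτ₀ : IsTameGenerator P p τ₀)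
    (hunr : ∀ s ∈ P.inertiaSubgroupIn ℚ, ∀ v : ρ.V,
      ρ.ρ s v - v ∈ maximalIdeal T • (⊤ : Submodule T ρ.V))
    (Sq : Matrix (Fin 2) (Fin 2) T) (hSq : Sq.charpoly = LinearMap.charpoly (ρ.ρ τ₀))
    (i : Idx O (Tchi a₂)) (hloc : IsLocalHom ((phi a₂ i : T →ₐ[O] Rq i) : T →+* Rq i))
    (h : (Sq.map (phi a₂ i) - 1) ^ 2 = 0) :
    (ρ.baseChangeAlong ((phi a₂ i : T →ₐ[O] Rq i) : T →+* Rq i) hloc).IsUnipotentOnInertiaAt q := by
  refine isUnipotentOnInertiaAt_of_tameGenerator _ hp (natCast_mem_maximalIdeal_Rq a₂ hpO i) hq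
    P hP hτ₀ (fun s hs => sub_mem_smul_top_baseChangeAlong _ hloc ρ s (hunr s hs)) ?_
  rw [Fermat.Agent.S54.charpoly_baseChangeAlong, ← hSq]
  have h1 := charpoly_eq_of_sub_one_sq_eq_zero (Sq.map (phi a₂ i)) h
  have h2 : (Sq.map (phi a₂ i)).charpoly =
      Sq.charpoly.map ((phi a₂ i : T →ₐ[O] Rq i) : T →+* Rq i) :=
    Matrix.charpoly_map Sq ((phi a₂ i : T →ₐ[O] Rq i) : T →+* Rq i)
  rw [← h2, h1]

/-- **GLUE, output 1 (`hnu`)**: the binder `hnu` of `Kill2Handle` / `kill₂_R5` /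
`nonempty_TWInput_multi` VERBATIM (with `Sq := S (Fin.last s)`), from

* `hSq` : `Sq` has the characteristic polynomial of `ρ(τ₀)`, `τ₀` a tame generator at `P ∣ q`
  (`ThetaT.charpoly_matT` + `charpoly_eq_of_isEquiv` + `TameGenKummer.isTameGenerator_of_kummer`),
* `hunr` : `ρ` residually unramified at `P`,
* `hB5` : at NO DVR point of `T^χ` the representation is unipotent on inertia at `q`
  (B5 + S36PLUS, file 2). -/
theorem hnu_of_not_isUnipotent {p q : ℕ} (hp : p.Prime)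
    (hpO : (p : O) ∈ maximalIdeal O) (hq : q.Prime)
    (P : ValuationSubring Qb) (hP : P.LiesOverPrime q) {τ₀ : GQ} (hτ₀ : IsTameGenerator P p τ₀)
    (hunr : ∀ s ∈ P.inertiaSubgroupIn ℚ, ∀ v : ρ.V,
      ρ.ρ s v - v ∈ maximalIdeal T • (⊤ : Submodule T ρ.V))
    (Sq : Matrix (Fin 2) (Fin 2) T) (hSq : Sq.charpoly = LinearMap.charpoly (ρ.ρ τ₀))
    (hB5 : ∀ (i : Idx O (Tchi a₂))
      (hloc : IsLocalHom ((phi a₂ i : T →ₐ[O] Rq i) : T →+* Rq i)),
      ¬ (ρ.baseChangeAlong ((phi a₂ i : T →ₐ[O] Rq i) : T →+* Rq i) hloc).IsUnipotentOnInertiaAt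
        q) :
    ∀ i : Fermat.Agent.GB.Glue.Points.Idx O (Tchi a₂),
      (Sq.map (phi a₂ i) - 1) ^ 2 = 0 → Sq.map (phi a₂ i) = 1 := by
  intro i h
  exact absurd (isUnipotent_of_sq_zero_at_point a₂ ρ hp hpO hq P hP hτ₀ hunr Sq hSq i
    (isLocalHom_phi a₂ i) h) (hB5 i (isLocalHom_phi a₂ i))

end Points

end Fermat.Agent.GB.B5.Glue.Hnu
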