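/-
GATE-B / GB-B5-GLUE-HNU (helper35), file 3: **B5 at a point** — the binder `hB5` of
`Glue/Hnu.hnu_of_not_isUnipotent`, of `Glue/Wne.hWne_occ_of_not_isUnipotent` and the binders
`hB5₁ hB5₂` of `ProviderFlat/G4Asm.exists_x_of_residual` / `G4Pkg.exists_x_of_pkg`, from

* helper83 `GB/B5/Point/FinalT.exists_newform_of_point_idem_T` (a point of the twisted Hecke algebra
  killing the annihilator of `(n − e) V_ℂ`, `e = ∑_{j ∈ s} ⟨d j⟩`, `e ∘ e = n • e`  ⟹  a newform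
  with `r₀`-exponent `2` carrying it; frame = helper44's `TwFinal` Main block at coefficients `ℂ`),
* helper41 `GB/B5/S36Plus.not_isUnipotentOnInertiaAt_of_newform` (frozen S36 without `hres`, for a
  GIVEN `ρ`),
* helper78 `GB/B5/Point/TransferH.tw_sub_sum_dia_eq_zero_of_complex` (relations of the twisted Hecke
  action descend from `ℂ` to `O`) and `GB/B5/Glue/HannAbs` (descent along `ι : P ↪ V_O`,
  `π : P ↠ M`).

Frame variables `θ hθ hodd L hL hnd hdvd hsq θloc pr hpr hprod S hS hNN' dℓ hdℓ tw htw` exactly as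
in `Point/FinalT.lean`, with `S : Finset ℕ` (used as `(↑S : Set ℕ)`).

* `not_isUnipotentOnInertiaAt_of_point_idem` : `χ : heckeAlgebra N' 2 S →+* O'`, `O'` a complete
  DVR, `hann` on `(n − e) V_ℂ`, `ρ` with the good Frobenius polynomials ⟹ `ρ` NOT unipotent on
  inertia at `r₀`.
* `not_isUnipotentOnInertiaAt_baseChangeAlong_idem` : the same for `ρ = ρ_T ⊗_x O'`.
* `not_isUnipotentOnInertiaAt_of_hannV` : `hann` stated on `V_O = Hom_par(Γ_H, O)`.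
* **`not_isUnipotentOnInertiaAt_of_squares`** : `hann` from the two squares `ι : P ↪ V_O`,
  `π : P ↠ M` and `∑_{j ∈ s} dM j (M) ⊆ W`, at ANY local point `x : T →+* O'` with
  `(∀ m, a t m ∈ W) → x t = 0`  (= `hB5₁ hB5₂` of G4 with `x := ψ q`, `W := unitSub`).
* **`hnu_of_squares`** : the binder `hnu` VERBATIM (`W = ⊥`: `∑_{j ∈ s} dM j = 0` on `M^χ`).
-/
import Mathlib
import Fermat.Agent.GB.B5.Point.FinalT
import Fermat.Agent.GB.B5.Point.TransferH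
import Fermat.Agent.GB.B5.Point.DiaIdem
import Fermat.Agent.GB.B5.S36Plus
import Fermat.Agent.GB.B5.Glue.Hnu
import Fermat.Agent.GB.B5.Glue.HannAbs
import Fermat.Agent.S54.Formal

set_option autoImplicit false
set_option linter.unusedSectionVars false
set_option linter.unusedVariables false
set_option linter.style.haveILetI false

open scoped MatrixGroups
open CongruenceSubgroup Polynomial IsLocalRing ModularFormClass CuspForm
open Fermat.Agent.GB.B3 Fermat.Agent.GB.B3.EisGamma0 Fermat.Agent.GB.B3.GamH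
open Fermat.Agent.GM.B ModularCurve.Period
open Fermat.Agent.GJ.J2.Lat
open Fermat.Agent.GB.B4.Twist.Asm Fermat.Agent.GB.B4.Twist.TwFinal
open Fermat.Agent.GB.B5.Point

namespace Fermat.Agent.GB.B5.Glue.HnuPoint

open Fermat.Agent.Common_helper32

/-- local instance (Prop-valued class) -/
local instance factPrimeOffGlue {S : Set ℕ} (l : PrimesOff S) : Fact (l.1 : ℕ).Prime := ⟨l.1.2⟩

section Frame

variable {N N' : ℕ} [NeZero N] [NeZero N'] {Δ : Type} [CommGroup Δ] [Fintype Δ]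
  (θ : (ZMod N)ˣ →* Δ) (hθ : Function.Surjective θ) (hodd : Odd (Nat.card Δ))
  (L : List ℕ) (hL : ∀ r ∈ L, r.Prime) (hnd : L.Nodup)
  (hdvd : ∀ r ∈ L, r ∣ N) (hsq : ∀ r ∈ L, ¬ r ^ 2 ∣ N)
  (θloc : (r : ℕ) → (ZMod r)ˣ →* Δ) (pr : ℕ → Δ →* Δ)
  (hpr : ∀ r ∈ L, ∀ (h : r ∣ N) (u : (ZMod N)ˣ), pr r (θ u) = θloc r (ZMod.unitsMap h u))
  (hprod : ∀ u : (ZMod N)ˣ, θ u = (L.map fun r => pr r (θ u)).prod)
  (S : Finset ℕ) (hS : ∀ q : ℕ, q.Prime → q ∣ N' → q ∈ (↑S : Set ℕ)) (hNN' : N ∣ N')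
  (dℓ : PrimesOff (↑S : Set ℕ) → Gamma0 N)
  (hdℓ : ∀ (l : PrimesOff (↑S : Set ℕ)) (u : (ZMod N)ˣ),
    (u : ZMod N) = ((l.1 : ℕ) : ZMod N) → chi θ (dℓ l) ^ 2 * θ u = 1)
  (tw : ↥(heckeAlgebra N' 2 (↑S : Set ℕ)) →+* Module.End ℂ ↥(parabolicHoms ℂ (GammaH θ) ℂ))
  (htw : ∀ (l : PrimesOff (↑S : Set ℕ)) (v : ↥(parabolicHoms ℂ (GammaH θ) ℂ)),
    ((tw (formsGenS N' (↑S : Set ℕ) l) v : ↥(parabolicHoms ℂ (GammaH θ) ℂ)) :
        Additive (GammaH θ) →+ ℂ)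
      = diaH θ ℂ (dℓ l) (GamH.TH θ ℂ (not_dvd_level (↑S : Set ℕ) hS hNN' l)
          (v : Additive (GammaH θ) →+ ℂ)))

include hθ hodd hL hnd hdvd hsq hpr hprod hdℓ htw in
/-- **B5 + S36PLUS at a point with values in a complete DVR** (`hann` on `(n − e) V_ℂ`). -/
theorem not_isUnipotentOnInertiaAt_of_point_idem (p : ℕ) [Fact p.Prime] (hp2 : p ≠ 2)
    (hpS : p ∈ S)
    {O' : Type} [CommRing O'] [IsDomain O'] [IsDiscreteValuationRing O']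
    [IsAdicComplete (maximalIdeal O') O'] [Finite (ResidueField O')] [CharZero O']
    (hpO' : (p : O') ∈ maximalIdeal O')
    (χ : ↥(heckeAlgebra N' 2 (↑S : Set ℕ)) →+* O')
    {r₀ : ℕ} (hr₀L : r₀ ∈ L)
    {J : Type} (s : Finset J) (hs : s.Nonempty) (d : J → Gamma0 N)
    (hd : ∀ j ∈ s, chi θ (d j) ∈ (θloc r₀).range) (n : ℤ)
    (he : ∀ v : ↥(parabolicHoms ℂ (GammaH θ) ℂ),
      (∑ i ∈ s, diaV θ ℂ (d i) (∑ j ∈ s, diaV θ ℂ (d j) v)) = n • ∑ j ∈ s, diaV θ ℂ (d j) v)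
    (hann : ∀ t : ↥(heckeAlgebra N' 2 (↑S : Set ℕ)),
      (∀ v : ↥(parabolicHoms ℂ (GammaH θ) ℂ), tw t (n • v - ∑ j ∈ s, diaV θ ℂ (d j) v) = 0) →
      χ t = 0)
    (hr₀p : r₀ ≠ p) (ρ : GaloisRepAdic O')
    (hρ : ∀ (ℓ : ℕ) (hℓ : ℓ.Prime) (hℓN : ¬ ℓ ∣ N') (hℓS : ℓ ∉ (↑S : Set ℕ))
      (A : ValuationSubring Qb), A.LiesOverPrime ℓ → ∀ σ : GQ, A.IsFrobeniusAt σ ℓ →
        LinearMap.charpoly (ρ.ρ σ) =
          X ^ 2 - C (χ (heckeAlgebra.T hℓ hℓN hℓS)) * X + C ((ℓ : O'))) :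
    ¬ ρ.IsUnipotentOnInertiaAt r₀ := by
  obtain ⟨ι, hι, M, g, hM0, hMdvd, hMN, hg, hcoeff, hfac⟩ :=
    exists_newform_of_point_idem_T θ hθ hodd L hL hnd hdvd hsq θloc pr hpr hprod (↑S : Set ℕ) hS
      hNN' dℓ hdℓ tw htw χ hr₀L s hs d hd n he hann
  haveI : NeZero M := ⟨hM0⟩
  have hMS : ∀ q : ℕ, q.Prime → q ∣ M → q ∈ S := fun q hq hqM =>
    Finset.mem_coe.mp (hS q hq ((hMN q hq hqM).trans hNN'))
  exact Fermat.Agent.GB.B5.S36Plus.not_isUnipotentOnInertiaAt_of_newform p hp2 S O' hpO' hpS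
    (fun q hq hqN => Finset.mem_coe.mp (hS q hq hqN)) χ ι hι hMS hg hcoeff r₀ (hL r₀ hr₀L) hr₀p
    hfac ρ hρ

include hθ hodd hL hnd hdvd hsq hpr hprod hdℓ htw in
/-- **the same for a base change** `ρ = ρ_T ⊗_x O'`, `χ = x ∘ chiT`. -/
theorem not_isUnipotentOnInertiaAt_baseChangeAlong_idem (p : ℕ) [Fact p.Prime] (hp2 : p ≠ 2)
    (hpS : p ∈ S)
    {T : Type} [CommRing T] [IsLocalRing T]
    (chiT : ↥(heckeAlgebra N' 2 (↑S : Set ℕ)) →+* T) (ρT : GaloisRepAdic T)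
    (hρT : ∀ (ℓ : ℕ) (hℓ : ℓ.Prime) (hℓN : ¬ ℓ ∣ N') (hℓS : ℓ ∉ (↑S : Set ℕ))
      (A : ValuationSubring Qb), A.LiesOverPrime ℓ → ∀ σ : GQ, A.IsFrobeniusAt σ ℓ →
        LinearMap.charpoly (ρT.ρ σ) =
          X ^ 2 - C (chiT (heckeAlgebra.T hℓ hℓN hℓS)) * X + C ((ℓ : T)))
    {O' : Type} [CommRing O'] [IsDomain O'] [IsDiscreteValuationRing O']
    [IsAdicComplete (maximalIdeal O') O'] [Finite (ResidueField O')] [CharZero O']
    (hpO' : (p : O') ∈ maximalIdeal O') (x : T →+* O') (hx : IsLocalHom x)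
    {r₀ : ℕ} (hr₀L : r₀ ∈ L)
    {J : Type} (s : Finset J) (hs : s.Nonempty) (d : J → Gamma0 N)
    (hd : ∀ j ∈ s, chi θ (d j) ∈ (θloc r₀).range) (n : ℤ)
    (he : ∀ v : ↥(parabolicHoms ℂ (GammaH θ) ℂ),
      (∑ i ∈ s, diaV θ ℂ (d i) (∑ j ∈ s, diaV θ ℂ (d j) v)) = n • ∑ j ∈ s, diaV θ ℂ (d j) v)
    (hann : ∀ t : ↥(heckeAlgebra N' 2 (↑S : Set ℕ)),
      (∀ v : ↥(parabolicHoms ℂ (GammaH θ) ℂ), tw t (n • v - ∑ j ∈ s, diaV θ ℂ (d j) v) = 0) →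
      x (chiT t) = 0)
    (hr₀p : r₀ ≠ p) :
    ¬ (ρT.baseChangeAlong x hx).IsUnipotentOnInertiaAt r₀ := by
  refine not_isUnipotentOnInertiaAt_of_point_idem θ hθ hodd L hL hnd hdvd hsq θloc pr hpr hprod S
    hS hNN' dℓ hdℓ tw htw p hp2 hpS hpO' (x.comp chiT) hr₀L s hs d hd n he hann hr₀p
    (ρT.baseChangeAlong x hx) ?_
  intro ℓ hℓ hℓN hℓS A hA σ hσ
  rw [Fermat.Agent.S54.charpoly_baseChangeAlong, hρT ℓ hℓ hℓN hℓS A hA σ hσ,
    Polynomial.map_add, Polynomial.map_sub, Polynomial.map_mul, Polynomial.map_pow,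
    Polynomial.map_X, Polynomial.map_C, Polynomial.map_C, map_natCast]
  rfl

/-! ### `hann` on the `O`-lattice -/

variable {O : Type} [CommRing O] (hO : ∀ (n : ℤ) (a : O), n ≠ 0 → n • a = 0 → a = 0)
  (twO : ↥(heckeAlgebra N' 2 (↑S : Set ℕ)) →+* Module.End O ↥(parabolicHoms O (GammaH θ) O))
  (htwO : ∀ (l : PrimesOff (↑S : Set ℕ)) (v : ↥(parabolicHoms O (GammaH θ) O)),
    ((twO (formsGenS N' (↑S : Set ℕ) l) v : ↥(parabolicHoms O (GammaH θ) O)) :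
        Additive (GammaH θ) →+ O)
      = diaH θ O (dℓ l) (GamH.TH θ O (not_dvd_level (↑S : Set ℕ) hS hNN' l)
          (v : Additive (GammaH θ) →+ O)))

include hθ hodd hL hnd hdvd hsq hpr hprod hdℓ htw hO htwO in
/-- **`hann` on `V_O = Hom_par(Γ_H, O)`**: a point `x ∘ chiT` killing every Hecke operator `t`
with `tw_O t ∘ (n − e) = 0` on `V_O`. -/
theorem not_isUnipotentOnInertiaAt_of_hannV (p : ℕ) [Fact p.Prime] (hp2 : p ≠ 2)
    (hpS : p ∈ S)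
    {T : Type} [CommRing T] [IsLocalRing T]
    (chiT : ↥(heckeAlgebra N' 2 (↑S : Set ℕ)) →+* T) (ρT : GaloisRepAdic T)
    (hρT : ∀ (ℓ : ℕ) (hℓ : ℓ.Prime) (hℓN : ¬ ℓ ∣ N') (hℓS : ℓ ∉ (↑S : Set ℕ))
      (A : ValuationSubring Qb), A.LiesOverPrime ℓ → ∀ σ : GQ, A.IsFrobeniusAt σ ℓ →
        LinearMap.charpoly (ρT.ρ σ) =
          X ^ 2 - C (chiT (heckeAlgebra.T hℓ hℓN hℓS)) * X + C ((ℓ : T)))
    {O' : Type} [CommRing O'] [IsDomain O'] [IsDiscreteValuationRing O']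
    [IsAdicComplete (maximalIdeal O') O'] [Finite (ResidueField O')] [CharZero O']
    (hpO' : (p : O') ∈ maximalIdeal O') (x : T →+* O') (hx : IsLocalHom x)
    {r₀ : ℕ} (hr₀L : r₀ ∈ L)
    {J : Type} (s : Finset J) (hs : s.Nonempty) (d : J → Gamma0 N)
    (hd : ∀ j ∈ s, chi θ (d j) ∈ (θloc r₀).range) (n : ℤ)
    (he : ∀ v : ↥(parabolicHoms ℂ (GammaH θ) ℂ),
      (∑ i ∈ s, diaV θ ℂ (d i) (∑ j ∈ s, diaV θ ℂ (d j) v)) = n • ∑ j ∈ s, diaV θ ℂ (d j) v)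
    (hannV : ∀ t : ↥(heckeAlgebra N' 2 (↑S : Set ℕ)),
      (∀ v : ↥(parabolicHoms O (GammaH θ) O), twO t (n • v - ∑ j ∈ s, diaV θ O (d j) v) = 0) →
      x (chiT t) = 0)
    (hr₀p : r₀ ≠ p) :
    ¬ (ρT.baseChangeAlong x hx).IsUnipotentOnInertiaAt r₀ := by
  refine not_isUnipotentOnInertiaAt_baseChangeAlong_idem θ hθ hodd L hL hnd hdvd hsq θloc pr hpr
    hprod S hS hNN' dℓ hdℓ tw htw p hp2 hpS chiT ρT hρT hpO' x hx hr₀L s hs d hd n he ?_ hr₀p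
  intro t ht
  exact hannV t (fun v => Fermat.Agent.GB.B5.Point.Transfer.tw_sub_sum_dia_eq_zero_of_complex θ
    (↑S : Set ℕ) hS hNN' dℓ tw htw hO twO htwO t s d n ht v)

/-! ### `hann` from the two squares `ι : P ↪ V_O`, `π : P ↠ M` -/

include hθ hodd hL hnd hdvd hsq hpr hprod hdℓ htw hO htwO in
/-- **B5 at a local point, from the two squares.**  `P` carries `twP`, `M` carries `a ∘ chiT`;
`ι : P ↪ V_O` and `π : P ↠ M` are equivariant for the Hecke operators and for the diamonds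
`⟨d j⟩` (`dP j` on `P`, `dM j` on `M`); `∑_{j ∈ s} dM j` maps `M` into the `a`-stable submodule
`W` with `M / W` `n`-torsion-free.  Then at every local point `x : T →+* O'` killing the
annihilator of `M / W` the representation is NOT unipotent on inertia at `r₀`.
(`x := ψ q`, `W := unitSub` : the binders `hB5₁ hB5₂` of `G4Asm.exists_x_of_residual`.) -/
theorem not_isUnipotentOnInertiaAt_of_squares (p : ℕ) [Fact p.Prime] (hp2 : p ≠ 2)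
    (hpS : p ∈ S)
    {T : Type} [CommRing T] [IsLocalRing T] [Algebra O T]
    (chiT : ↥(heckeAlgebra N' 2 (↑S : Set ℕ)) →+* T) (ρT : GaloisRepAdic T)
    (hρT : ∀ (ℓ : ℕ) (hℓ : ℓ.Prime) (hℓN : ¬ ℓ ∣ N') (hℓS : ℓ ∉ (↑S : Set ℕ))
      (A : ValuationSubring Qb), A.LiesOverPrime ℓ → ∀ σ : GQ, A.IsFrobeniusAt σ ℓ →
        LinearMap.charpoly (ρT.ρ σ) =
          X ^ 2 - C (chiT (heckeAlgebra.T hℓ hℓN hℓS)) * X + C ((ℓ : T)))
    {O' : Type} [CommRing O'] [IsDomain O'] [IsDiscreteValuationRing O']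
    [IsAdicComplete (maximalIdeal O') O'] [Finite (ResidueField O')] [CharZero O']
    (hpO' : (p : O') ∈ maximalIdeal O') (x : T →+* O') (hx : IsLocalHom x)
    {r₀ : ℕ} (hr₀L : r₀ ∈ L)
    {J : Type} (s : Finset J) (hs : s.Nonempty) (d : J → Gamma0 N)
    (hd : ∀ j ∈ s, chi θ (d j) ∈ (θloc r₀).range) (n : ℤ)
    (he : ∀ v : ↥(parabolicHoms ℂ (GammaH θ) ℂ),
      (∑ i ∈ s, diaV θ ℂ (d i) (∑ j ∈ s, diaV θ ℂ (d j) v)) = n • ∑ j ∈ s, diaV θ ℂ (d j) v)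
    -- the two squares
    {P M : Type} [AddCommGroup P] [Module O P] [AddCommGroup M] [Module O M]
    (ι : P →ₗ[O] ↥(parabolicHoms O (GammaH θ) O)) (hι : Function.Injective ι)
    (π : P →ₗ[O] M) (hπ : Function.Surjective π)
    (twP : ↥(heckeAlgebra N' 2 (↑S : Set ℕ)) → P →ₗ[O] P)
    (a : T →ₐ[O] Module.End O M)
    (hιT : ∀ t y, ι (twP t y) = twO t (ι y)) (hπT : ∀ t y, π (twP t y) = a (chiT t) (π y))
    (dP : J → P →ₗ[O] P) (dM : J → M →ₗ[O] M)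
    (hιd : ∀ j y, ι (dP j y) = diaV θ O (d j) (ι y)) (hπd : ∀ j y, π (dP j y) = dM j (π y))
    (W : Submodule O M) (hW : ∀ (t : T), ∀ m ∈ W, a t m ∈ W)
    (hsum : ∀ m, ∑ j ∈ s, dM j m ∈ W) (htf : ∀ m : M, n • m ∈ W → m ∈ W)
    (hocc : ∀ t : T, (∀ m, a t m ∈ W) → x t = 0)
    (hr₀p : r₀ ≠ p) :
    ¬ (ρT.baseChangeAlong x hx).IsUnipotentOnInertiaAt r₀ := by
  refine not_isUnipotentOnInertiaAt_of_hannV θ hθ hodd L hL hnd hdvd hsq θloc pr hpr hprod S hS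
    hNN' dℓ hdℓ tw htw hO twO htwO p hp2 hpS chiT ρT hρT hpO' x hx hr₀L s hs d hd n he ?_ hr₀p
  intro t ht
  refine hocc (chiT t) (fun m => ?_)
  exact Fermat.Agent.GB.B5.Glue.HannAbs.mem_of_transfer ι π (twO t) (twP t) (a (chiT t)) s
    (fun j => diaV θ O (d j)) dP dM n hι hπ (hιT t) (hπT t) hιd hπd W (hW (chiT t)) hsum htf ht m

/-! ### `hnu` -/

/-- `ℤ`-torsion-freeness of a characteristic zero domain, in the shape of `TransferH`. -/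
theorem zsmul_eq_zero_of_charZero {R : Type} [CommRing R] [IsDomain R] [CharZero R] (n : ℤ)
    (a : R) (hn : n ≠ 0) (h : n • a = 0) : a = 0 := by
  rw [zsmul_eq_mul] at h
  rcases mul_eq_zero.mp h with h1 | h1
  · exact absurd (Int.cast_eq_zero.mp h1) hn
  · exact h1

include hθ hodd hL hnd hdvd hsq hpr hprod hdℓ htw htwO in
/-- **GLUE, `hnu` VERBATIM from the two squares** (`W = ⊥`): `M = M^χ` is a torsion-free quotient
of `P ↪ V_O` on which `∑_{j ∈ s} ⟨d j⟩ = 0` (`HannAbs.sum_eq_zero_of_char`: the diamonds at `r₀`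
act through a non-trivial character), `n ≠ 0`. -/
theorem hnu_of_squares [IsDomain O] [IsDiscreteValuationRing O]
    [IsAdicComplete (maximalIdeal O) O] [CharZero O] [Finite (ResidueField O)]
    (p : ℕ) [Fact p.Prime] (hp2 : p ≠ 2) (hpS : p ∈ S) (hpO : (p : O) ∈ maximalIdeal O)
    {T : Type} [CommRing T] [Algebra O T] [Module.Finite O T] [IsReduced T] [IsLocalRing T]
    (chiT : ↥(heckeAlgebra N' 2 (↑S : Set ℕ)) →+* T) (ρT : GaloisRepAdic T)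
    (hρT : ∀ (ℓ : ℕ) (hℓ : ℓ.Prime) (hℓN : ¬ ℓ ∣ N') (hℓS : ℓ ∉ (↑S : Set ℕ))
      (A : ValuationSubring Qb), A.LiesOverPrime ℓ → ∀ σ : GQ, A.IsFrobeniusAt σ ℓ →
        LinearMap.charpoly (ρT.ρ σ) =
          X ^ 2 - C (chiT (heckeAlgebra.T hℓ hℓN hℓS)) * X + C ((ℓ : T)))
    {r₀ : ℕ} (hr₀L : r₀ ∈ L) (hr₀p : r₀ ≠ p)
    {J : Type} (s : Finset J) (hs : s.Nonempty) (d : J → Gamma0 N)
    (hd : ∀ j ∈ s, chi θ (d j) ∈ (θloc r₀).range) (n : ℤ) (hn : n ≠ 0)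
    (he : ∀ v : ↥(parabolicHoms ℂ (GammaH θ) ℂ),
      (∑ i ∈ s, diaV θ ℂ (d i) (∑ j ∈ s, diaV θ ℂ (d j) v)) = n • ∑ j ∈ s, diaV θ ℂ (d j) v)
    -- the two squares
    {P M : Type} [AddCommGroup P] [Module O P] [AddCommGroup M] [Module O M]
    [Module.IsTorsionFree O M] [Nontrivial M]
    (ι : P →ₗ[O] ↥(parabolicHoms O (GammaH θ) O)) (hι : Function.Injective ι)
    (π : P →ₗ[O] M) (hπ : Function.Surjective π)
    (twP : ↥(heckeAlgebra N' 2 (↑S : Set ℕ)) → P →ₗ[O] P)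
    (a₂ : T →ₐ[O] Module.End O M)
    (hιT : ∀ t y, ι (twP t y) = twO t (ι y)) (hπT : ∀ t y, π (twP t y) = a₂ (chiT t) (π y))
    (dP : J → P →ₗ[O] P) (dM : J → M →ₗ[O] M)
    (hιd : ∀ j y, ι (dP j y) = diaV θ O (d j) (ι y)) (hπd : ∀ j y, π (dP j y) = dM j (π y))
    (hsum : ∀ m, ∑ j ∈ s, dM j m = 0)
    -- the local data at `r₀`
    (Pl : ValuationSubring Qb) (hPl : Pl.LiesOverPrime r₀) {τ₀ : GQ}
    (hτ₀ : Fermat.Agent.GB.E2.TameGenAdic.IsTameGenerator Pl p τ₀)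
    (hunr : ∀ σ ∈ Pl.inertiaSubgroupIn ℚ, ∀ v : ρT.V,
      ρT.ρ σ v - v ∈ maximalIdeal T • (⊤ : Submodule T ρT.V))
    (Sq : Matrix (Fin 2) (Fin 2) T) (hSq : Sq.charpoly = LinearMap.charpoly (ρT.ρ τ₀)) :
    ∀ i : Fermat.Agent.GB.Glue.Points.Idx O (Fermat.Agent.GB.Local.Multi.Kill2Field.Tchi a₂),
      (Sq.map (Fermat.Agent.GB.Local.Multi.Kill2Q.phi a₂ i) - 1) ^ 2 = 0 →
        Sq.map (Fermat.Agent.GB.Local.Multi.Kill2Q.phi a₂ i) = 1 := by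
  have hp : p.Prime := Fact.out
  refine Fermat.Agent.GB.B5.Glue.Hnu.hnu_of_not_isUnipotent a₂ ρT hp hpO (hL r₀ hr₀L) Pl hPl hτ₀
    hunr Sq hSq (fun i hloc => ?_)
  refine not_isUnipotentOnInertiaAt_of_squares θ hθ hodd L hL hnd hdvd hsq θloc pr hpr hprod S hS
    hNN' dℓ hdℓ tw htw (zsmul_eq_zero_of_charZero (R := O)) twO htwO p hp2 hpS chiT ρT hρT
    (Fermat.Agent.GB.B5.Glue.Hnu.natCast_mem_maximalIdeal_Rq a₂ hpO i) _ hloc hr₀L s hs d hd n he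
    ι hι π hπ twP a₂ hιT hπT dP dM hιd hπd ⊥ (fun t m hm => ?_) (fun m => ?_) (fun m hm => ?_)
    (fun t ht => ?_) hr₀p
  · rw [Submodule.mem_bot] at hm ⊢
    rw [hm, map_zero]
  · rw [Submodule.mem_bot]
    exact hsum m
  · rw [Submodule.mem_bot] at hm ⊢
    rw [← Int.cast_smul_eq_zsmul O n m] at hm
    exact (smul_eq_zero_iff_right (Int.cast_ne_zero.mpr hn)).mp hm
  · have h0 : a₂ t = 0 := LinearMap.ext fun m => by
      have := ht m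
      rwa [Submodule.mem_bot] at this
    show (Fermat.Agent.GB.Glue.Points.ψ i)
      (Fermat.Agent.GB.Local.Multi.Kill2Field.mkChi a₂ t) = 0
    rw [(Fermat.Agent.GB.Local.Multi.Kill2Field.mkChi_eq_zero_iff a₂).mpr h0, map_zero]

/-! ### the cyclic case: `s` = all powers of ONE diamond `d₀` at `r₀` -/

/-- the powers of a diamond: `ι ∘ DP^j = ⟨d₀^j⟩ ∘ ι`. -/
theorem iota_pow_eq {K : Type} [CommRing K] {P : Type} [AddCommGroup P] [Module K P]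
    (ι : P →ₗ[K] ↥(parabolicHoms K (GammaH θ) K)) (d₀ : Gamma0 N) (DP : P →ₗ[K] P)
    (hιD : ∀ y, ι (DP y) = diaV θ K d₀ (ι y)) (j : ℕ) (y : P) :
    ι ((DP ^ j) y) = diaV θ K (d₀ ^ j) (ι y) := by
  induction j generalizing y with
  | zero =>
    apply Subtype.ext
    rw [pow_zero, pow_zero, Module.End.one_apply, coe_diaV, diaH_of_ker θ 1 (map_one _)]
  | succ j ih =>
    rw [pow_succ', Module.End.mul_apply, hιD, ih, Fermat.Agent.GB.B5.Point.Transfer.diaV_mul,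
      ← pow_succ]

/-- the quasi-idempotent relation for the powers of a diamond of order dividing `n`. -/
theorem sum_pow_diaV_idem {K : Type} [CommRing K] (d₀ : Gamma0 N) (n : ℕ) [NeZero n]
    (hd₀n : chi θ d₀ ^ n = 1) (v : ↥(parabolicHoms K (GammaH θ) K)) :
    (∑ i : Fin n, diaV θ K (d₀ ^ (i : ℕ)) (∑ j : Fin n, diaV θ K (d₀ ^ (j : ℕ)) v))
      = (n : ℤ) • ∑ j : Fin n, diaV θ K (d₀ ^ (j : ℕ)) v := by
  have hperm : ∀ j₀ : Fin n, ∃ σ : Equiv.Perm (Fin n),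
      ∀ j : Fin n, chi θ (d₀ ^ (j : ℕ) * d₀ ^ (j₀ : ℕ)) = chi θ (d₀ ^ ((σ j : Fin n) : ℕ)) := by
    intro j₀
    refine ⟨Equiv.addRight j₀, fun j => ?_⟩
    rw [← pow_add, map_pow, map_pow, Equiv.coe_addRight, Fin.val_add]
    exact pow_eq_pow_mod _ hd₀n
  have h1 : ∀ i : Fin n,
      diaV θ K (d₀ ^ (i : ℕ)) (∑ j : Fin n, diaV θ K (d₀ ^ (j : ℕ)) v)
        = ∑ j : Fin n, diaV θ K (d₀ ^ (j : ℕ)) v := fun i =>
    Fermat.Agent.GB.B5.Point.Transfer.diaV_sum_eq θ K (fun j : Fin n => d₀ ^ (j : ℕ)) hperm i v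
  rw [Finset.sum_congr rfl fun i _ => h1 i, Finset.sum_const, Finset.card_univ,
    Fintype.card_fin, natCast_zsmul]

include hθ hodd hL hnd hdvd hsq hpr hprod hdℓ htw hO htwO in
/-- **B5 at a local point, cyclic form** (general `W`): the diamond `⟨d₀⟩` at `r₀` (of order
dividing `n`) acts on `P` by `DP` and on `M` by `DM`; `∑_{j < n} DM^j` maps `M` into `W`.
(`x := ψ q`, `W := unitSub`, `DM := L.D i`: the binders `hB5₁ hB5₂` of G4.) -/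
theorem not_isUnipotentOnInertiaAt_of_squares_cyclic (p : ℕ) [Fact p.Prime] (hp2 : p ≠ 2)
    (hpS : p ∈ S)
    {T : Type} [CommRing T] [IsLocalRing T] [Algebra O T]
    (chiT : ↥(heckeAlgebra N' 2 (↑S : Set ℕ)) →+* T) (ρT : GaloisRepAdic T)
    (hρT : ∀ (ℓ : ℕ) (hℓ : ℓ.Prime) (hℓN : ¬ ℓ ∣ N') (hℓS : ℓ ∉ (↑S : Set ℕ))
      (A : ValuationSubring Qb), A.LiesOverPrime ℓ → ∀ σ : GQ, A.IsFrobeniusAt σ ℓ →
        LinearMap.charpoly (ρT.ρ σ) =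
          X ^ 2 - C (chiT (heckeAlgebra.T hℓ hℓN hℓS)) * X + C ((ℓ : T)))
    {O' : Type} [CommRing O'] [IsDomain O'] [IsDiscreteValuationRing O']
    [IsAdicComplete (maximalIdeal O') O'] [Finite (ResidueField O')] [CharZero O']
    (hpO' : (p : O') ∈ maximalIdeal O') (x : T →+* O') (hx : IsLocalHom x)
    {r₀ : ℕ} (hr₀L : r₀ ∈ L) (hr₀p : r₀ ≠ p)
    (d₀ : Gamma0 N) (hd₀ : chi θ d₀ ∈ (θloc r₀).range) (n : ℕ) [NeZero n]
    (hd₀n : chi θ d₀ ^ n = 1)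
    -- the two squares
    {P M : Type} [AddCommGroup P] [Module O P] [AddCommGroup M] [Module O M]
    (ι : P →ₗ[O] ↥(parabolicHoms O (GammaH θ) O)) (hι : Function.Injective ι)
    (π : P →ₗ[O] M) (hπ : Function.Surjective π)
    (twP : ↥(heckeAlgebra N' 2 (↑S : Set ℕ)) → P →ₗ[O] P)
    (a : T →ₐ[O] Module.End O M)
    (hιT : ∀ t y, ι (twP t y) = twO t (ι y)) (hπT : ∀ t y, π (twP t y) = a (chiT t) (π y))
    (DP : P →ₗ[O] P) (hιD : ∀ y, ι (DP y) = diaV θ O d₀ (ι y))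
    (DM : M →ₗ[O] M) (hπD : ∀ y, π (DP y) = DM (π y))
    (W : Submodule O M) (hW : ∀ (t : T), ∀ m ∈ W, a t m ∈ W)
    (hsum : ∀ m, ∑ j : Fin n, (DM ^ (j : ℕ)) m ∈ W) (htf : ∀ m : M, (n : ℤ) • m ∈ W → m ∈ W)
    (hocc : ∀ t : T, (∀ m, a t m ∈ W) → x t = 0) :
    ¬ (ρT.baseChangeAlong x hx).IsUnipotentOnInertiaAt r₀ := by
  have hπpow : ∀ (j : ℕ) (y : P), π ((DP ^ j) y) = (DM ^ j) (π y) := by
    intro j
    induction j with
    | zero => intro y; rw [pow_zero, pow_zero, Module.End.one_apply, Module.End.one_apply]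
    | succ j ih =>
      intro y
      rw [pow_succ', pow_succ', Module.End.mul_apply, Module.End.mul_apply, hπD, ih]
  refine not_isUnipotentOnInertiaAt_of_squares θ hθ hodd L hL hnd hdvd hsq θloc pr hpr hprod S hS
    hNN' dℓ hdℓ tw htw hO twO htwO p hp2 hpS chiT ρT hρT hpO' x hx hr₀L
    (Finset.univ : Finset (Fin n)) Finset.univ_nonempty (fun j => d₀ ^ (j : ℕ)) (fun j _ => ?_)
    (n : ℤ) (fun v => sum_pow_diaV_idem θ d₀ n hd₀n v) ι hι π hπ twP a hιT hπT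
    (fun j => DP ^ (j : ℕ)) (fun j => DM ^ (j : ℕ))
    (fun j y => iota_pow_eq θ ι d₀ DP hιD j y) (fun j y => hπpow j y) W hW hsum htf hocc hr₀p
  rw [map_pow]
  exact Subgroup.pow_mem _ hd₀ _

include hθ hodd hL hnd hdvd hsq hpr hprod hdℓ htw htwO in
/-- **GLUE, `hnu` VERBATIM, cyclic form**: the diamond `⟨d₀⟩` at `r₀` (of order dividing `n`)
acts on `P` by `DP` and on the quotient `M = M^χ` by the scalar `c ≠ 1`. -/
theorem hnu_of_squares_cyclic [IsDomain O] [IsDiscreteValuationRing O]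
    [IsAdicComplete (maximalIdeal O) O] [CharZero O] [Finite (ResidueField O)]
    (p : ℕ) [Fact p.Prime] (hp2 : p ≠ 2) (hpS : p ∈ S) (hpO : (p : O) ∈ maximalIdeal O)
    {T : Type} [CommRing T] [Algebra O T] [Module.Finite O T] [IsReduced T] [IsLocalRing T]
    (chiT : ↥(heckeAlgebra N' 2 (↑S : Set ℕ)) →+* T) (ρT : GaloisRepAdic T)
    (hρT : ∀ (ℓ : ℕ) (hℓ : ℓ.Prime) (hℓN : ¬ ℓ ∣ N') (hℓS : ℓ ∉ (↑S : Set ℕ))
      (A : ValuationSubring Qb), A.LiesOverPrime ℓ → ∀ σ : GQ, A.IsFrobeniusAt σ ℓ →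
        LinearMap.charpoly (ρT.ρ σ) =
          X ^ 2 - C (chiT (heckeAlgebra.T hℓ hℓN hℓS)) * X + C ((ℓ : T)))
    {r₀ : ℕ} (hr₀L : r₀ ∈ L) (hr₀p : r₀ ≠ p)
    (d₀ : Gamma0 N) (hd₀ : chi θ d₀ ∈ (θloc r₀).range) (n : ℕ) [NeZero n]
    (hd₀n : chi θ d₀ ^ n = 1)
    -- the two squares
    {P M : Type} [AddCommGroup P] [Module O P] [AddCommGroup M] [Module O M]
    [Module.IsTorsionFree O M] [Nontrivial M]
    (ι : P →ₗ[O] ↥(parabolicHoms O (GammaH θ) O)) (hι : Function.Injective ι)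
    (π : P →ₗ[O] M) (hπ : Function.Surjective π)
    (twP : ↥(heckeAlgebra N' 2 (↑S : Set ℕ)) → P →ₗ[O] P)
    (a₂ : T →ₐ[O] Module.End O M)
    (hιT : ∀ t y, ι (twP t y) = twO t (ι y)) (hπT : ∀ t y, π (twP t y) = a₂ (chiT t) (π y))
    (DP : P →ₗ[O] P) (hιD : ∀ y, ι (DP y) = diaV θ O d₀ (ι y))
    (c : O) (hcn : c ^ n = 1) (hc1 : c ≠ 1) (hπD : ∀ y, π (DP y) = c • π y)
    -- the local data at `r₀`
    (Pl : ValuationSubring Qb) (hPl : Pl.LiesOverPrime r₀) {τ₀ : GQ}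
    (hτ₀ : Fermat.Agent.GB.E2.TameGenAdic.IsTameGenerator Pl p τ₀)
    (hunr : ∀ σ ∈ Pl.inertiaSubgroupIn ℚ, ∀ v : ρT.V,
      ρT.ρ σ v - v ∈ maximalIdeal T • (⊤ : Submodule T ρT.V))
    (Sq : Matrix (Fin 2) (Fin 2) T) (hSq : Sq.charpoly = LinearMap.charpoly (ρT.ρ τ₀)) :
    ∀ i : Fermat.Agent.GB.Glue.Points.Idx O (Fermat.Agent.GB.Local.Multi.Kill2Field.Tchi a₂),
      (Sq.map (Fermat.Agent.GB.Local.Multi.Kill2Q.phi a₂ i) - 1) ^ 2 = 0 →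
        Sq.map (Fermat.Agent.GB.Local.Multi.Kill2Q.phi a₂ i) = 1 := by
  have hπpow : ∀ (j : ℕ) (y : P), π ((DP ^ j) y) = c ^ j • π y := by
    intro j
    induction j with
    | zero => intro y; rw [pow_zero, pow_zero, Module.End.one_apply, one_smul]
    | succ j ih =>
      intro y
      rw [pow_succ', Module.End.mul_apply, hπD, ih, smul_smul, ← pow_succ']
  have hgeom : ∑ j : Fin n, c ^ (j : ℕ) = 0 := by
    rw [Fin.sum_univ_eq_sum_range (fun i => c ^ i) n]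
    have h1 : (c - 1) * ∑ i ∈ Finset.range n, c ^ i = 0 := by
      rw [mul_geom_sum, hcn, sub_self]
    rcases mul_eq_zero.mp h1 with h2 | h2
    · exact absurd (sub_eq_zero.mp h2) hc1
    · exact h2
  refine hnu_of_squares θ hθ hodd L hL hnd hdvd hsq θloc pr hpr hprod S hS hNN' dℓ hdℓ tw htw twO
    htwO p hp2 hpS hpO chiT ρT hρT hr₀L hr₀p (Finset.univ : Finset (Fin n)) Finset.univ_nonempty
    (fun j => d₀ ^ (j : ℕ)) (fun j _ => ?_) (n : ℤ) (Int.natCast_ne_zero.mpr (NeZero.ne n))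
    (fun v => sum_pow_diaV_idem θ d₀ n hd₀n v) ι hι π hπ twP a₂ hιT hπT
    (fun j => DP ^ (j : ℕ)) (fun j => c ^ (j : ℕ) • LinearMap.id)
    (fun j y => iota_pow_eq θ ι d₀ DP hιD j y) (fun j y => ?_) (fun m => ?_) Pl hPl hτ₀ hunr Sq hSq
  · rw [map_pow]
    exact Subgroup.pow_mem _ hd₀ _
  · rw [hπpow, LinearMap.smul_apply, LinearMap.id_apply]
  · have h1 : ∑ j : Fin n, (c ^ (j : ℕ) • (LinearMap.id : M →ₗ[O] M)) m
        = (∑ j : Fin n, c ^ (j : ℕ)) • m := by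
      rw [Finset.sum_smul]
      refine Finset.sum_congr rfl fun j _ => ?_
      rw [LinearMap.smul_apply, LinearMap.id_apply]
    rw [h1, hgeom, zero_smul]

end Frame

end Fermat.Agent.GB.B5.Glue.HnuPoint
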