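/-
GATE-B / GB-B5-GLUE-HNU (helper35), file 2: **the GLUE from B5 to the `(Wpt)` binder in its WEAK
form `hWne`** (helper66, board 6366: `θ (x i) ≠ 1`; the exact order `p` follows from `(1)_i` by
integrality in helper66's `GB/Alg/UnitOrder`), abstract (Galois / commutative algebra) half.

Consumer shape (`GB/Alg/UnitPoints.unit_field_of_diamonds`, weak form):
  `∀ i, ∀ θ : T →ₐ[O] Ω, ∑ j ∈ range p, θ (δ i) ^ j = 0 → (∀ j, i ≠ j → θ (δ j) = 1) → θ (x i) ≠ 1`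
with `x i = χ₁(τ₀ i)` the value of the inertial character at the Taylor–Wiles prime `r i`
(`GB/E2/TWChars.exists_characters_of_unr`) on a tame generator.

* `chi_ne_one_of_not_isUnipotent` : `ρ|D_P = χ₀ ⊕ χ₁` in a basis, `det ρ` cyclotomic, `τ₀` a tame
  generator at `P ∣ r ≠ p`; at a local point `x : A → B'` (`B'` noetherian local domain) where
  `ρ ⊗_x B'` is NOT unipotent on inertia at `r` (B5 + S36PLUS): `x (χ_i τ₀) ≠ 1`, `i = 0, 1`.
* `exists_factor_ψ` : every `θ : T →ₐ[O] Ω` (`Ω` a field, torsion-free over `O`) factors through one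
  of the DVR points `ψ q : T → Rq q` of `GB/Glue/Points` by an injection `Rq q → Ω`.
* **`hWne_of_not_isUnipotent`** : the weak `(Wpt)` binder from the statement at the DVR points.
* `hWne_occ_of_not_isUnipotent` : the same in the "occurring" shape of `unit_field_of_points`.
-/
import Mathlib
import Fermat.Agent.GB.B5.Glue.Hnu
import Fermat.Agent.GB.E2.TamePair
import Fermat.Agent.GB.Alg.UnitLocal

set_option autoImplicit false
set_option linter.unusedSectionVars false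
set_option linter.unusedVariables false
set_option linter.style.haveILetI false

open Polynomial IsLocalRing Finset
open scoped TensorProduct

namespace Fermat.Agent.GB.B5.Glue.Wne

open Fermat.Agent.Common_helper32
open Fermat.Agent.GB.E2.TameGenAdic
open Fermat.Agent.GB.Glue.Points
open Fermat.Agent.GB.B5.Glue.Hnu

/-! ### the inertial characters at a point which is not unipotent -/

section Chi

variable {A : Type} [CommRing A] [IsLocalRing A] [IsNoetherianRing A]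

/-- **B5 ⟹ the inertial characters are non-trivial at the point.**  `ρ|D_P = χ₀ ⊕ χ₁` in the
basis `B` (`TWChars`), `det ρ` cyclotomic, `τ₀` a tame generator at `P ∣ r`, `r ≠ p`, `ρ` residually
unramified at `P`.  If `ρ ⊗_x B'` is not unipotent on inertia at `r`, then `x (χ_i τ₀) ≠ 1`. -/
theorem chi_ne_one_of_not_isUnipotent (ρ : GaloisRepAdic A) (P : ValuationSubring Qb)
    (B : Module.Basis (Fin 2) A ρ.V) (χ : Fin 2 → P.decompositionSubgroup ℚ →* Aˣ)
    (hχ : ∀ (i : Fin 2) (σ : P.decompositionSubgroup ℚ),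
      ρ.ρ (σ : GQ) (B i) = (χ i σ : A) • B i)
    {p r : ℕ} (hp : p.Prime) (hr : r.Prime) (hpr : p ≠ r) (hP : P.LiesOverPrime r)
    (hdet : ρ.DetIsCyclotomic p) {τ₀ : GQ} (hτ₀ : IsTameGenerator P p τ₀)
    (hunr : ∀ s ∈ P.inertiaSubgroupIn ℚ, ∀ v : ρ.V,
      ρ.ρ s v - v ∈ maximalIdeal A • (⊤ : Submodule A ρ.V))
    {B' : Type} [CommRing B'] [IsLocalRing B'] [IsNoetherianRing B'] [IsDomain B']
    (x : A →+* B') (hx : IsLocalHom x)
    (hnot : ¬ (ρ.baseChangeAlong x hx).IsUnipotentOnInertiaAt r)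
    (hτD : τ₀ ∈ P.decompositionSubgroup ℚ) (i : Fin 2) :
    x (χ i ⟨τ₀, hτD⟩ : A) ≠ 1 := by
  intro h1
  apply hnot
  have hpA : (p : A) ∈ maximalIdeal A := hdet.1
  have hpB : (p : B') ∈ maximalIdeal B' := by
    have h2 : x (p : A) ∈ maximalIdeal B' :=
      (mem_maximalIdeal _).2 (haveI := hx; map_nonunit x _ ((mem_maximalIdeal _).1 hpA))
    rwa [map_natCast] at h2
  -- `χ₀(τ₀) χ₁(τ₀) = det ρ(τ₀) = 1`
  have hd1 : LinearMap.det (ρ.ρ τ₀) = 1 :=
    Fermat.Agent.GB.E2.TamePair.det_eq_one_of_mem_inertia ρ P hdet hp hr hpr hP hτ₀.1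
  have hd2 : LinearMap.det (ρ.ρ τ₀) = (χ 0 ⟨τ₀, hτD⟩ : A) * (χ 1 ⟨τ₀, hτD⟩ : A) :=
    Fermat.Agent.GB.Alg.UnitLocal.det_of_diag B (ρ.ρ τ₀) (fun i => (χ i ⟨τ₀, hτD⟩ : A))
      (fun i => hχ i ⟨τ₀, hτD⟩)
  have hprod : x (χ 0 ⟨τ₀, hτD⟩ : A) * x (χ 1 ⟨τ₀, hτD⟩ : A) = 1 := by
    rw [← map_mul, ← hd2, hd1, map_one]
  have h01 : x (χ 0 ⟨τ₀, hτD⟩ : A) = 1 ∧ x (χ 1 ⟨τ₀, hτD⟩ : A) = 1 := by
    fin_cases i
    · have h1' : x (χ 0 ⟨τ₀, hτD⟩ : A) = 1 := h1
      refine ⟨h1', ?_⟩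
      rw [h1', one_mul] at hprod
      exact hprod
    · have h1' : x (χ 1 ⟨τ₀, hτD⟩ : A) = 1 := h1
      refine ⟨?_, h1'⟩
      rw [h1', mul_one] at hprod
      exact hprod
  refine isUnipotentOnInertiaAt_of_tameGenerator _ hp hpB hr P hP hτ₀
    (fun s hs => sub_mem_smul_top_baseChangeAlong x hx ρ s (hunr s hs)) ?_
  rw [Fermat.Agent.S54.charpoly_baseChangeAlong,
    Fermat.Agent.GB.Alg.UnitLocal.charpoly_of_diag B (ρ.ρ τ₀) (fun i => (χ i ⟨τ₀, hτD⟩ : A))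
      (fun i => hχ i ⟨τ₀, hτD⟩),
    Polynomial.map_mul, Polynomial.map_sub, Polynomial.map_sub, Polynomial.map_X,
    Polynomial.map_C, Polynomial.map_C, h01.1, h01.2, map_one]
  ring

end Chi

/-! ### every point with values in a field factors through a DVR point -/

section Factor

variable {O : Type} [CommRing O] [IsDomain O] [IsDiscreteValuationRing O]
  [IsAdicComplete (maximalIdeal O) O] [CharZero O]
  {T : Type} [CommRing T] [Algebra O T] [Module.Finite O T]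
  {Ω : Type*} [Field Ω] [Algebra O Ω] [Module.IsTorsionFree O Ω]

/-- `O → Ω` is injective (`Ω` a torsion-free nontrivial `O`-module). -/
theorem algebraMap_injective_of_isTorsionFree : Function.Injective (algebraMap O Ω) := by
  rw [injective_iff_map_eq_zero]
  intro a ha
  by_contra hne
  have h1 : a • (1 : Ω) = 0 := by rw [Algebra.smul_def, ha, zero_mul]
  have h2 := (smul_eq_zero_iff_right hne).mp h1
  exact one_ne_zero h2

/-- **every `θ : T →ₐ[O] Ω` factors through a DVR point `ψ q`**. -/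
theorem exists_factor_ψ (θ : T →ₐ[O] Ω) :
    ∃ (q : Idx O T) (j : Rq q →ₐ[O] Ω), Function.Injective j ∧ ∀ t : T, θ t = j (ψ q t) := by
  have hinj : Function.Injective (algebraMap O Ω) := algebraMap_injective_of_isTorsionFree
  -- `K → Ω`
  let gK : FractionRing O →ₐ[O] Ω :=
    IsFractionRing.liftAlgHom (g := Algebra.ofId O Ω) hinj
  let Θ : TK O T →ₐ[O] Ω := Algebra.TensorProduct.productMap gK θ
  have hΘ : ∀ t : T, Θ ((1 : FractionRing O) ⊗ₜ[O] t) = θ t := by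
    intro t
    rw [Algebra.TensorProduct.productMap_apply_tmul, map_one, one_mul]
  haveI : IsArtinianRing (TK O T) := IsArtinianRing.of_finite (FractionRing O) _
  haveI hprime : (RingHom.ker (Θ : TK O T →+* Ω)).IsPrime := RingHom.ker_isPrime _
  haveI hmax : (RingHom.ker (Θ : TK O T →+* Ω)).IsMaximal :=
    IsArtinianRing.isMaximal_of_isPrime _
  let q : Idx O T := ⟨RingHom.ker (Θ : TK O T →+* Ω), hmax⟩
  let jL : Lq q →ₐ[O] Ω := Ideal.Quotient.liftₐ q.asIdeal Θ (fun a ha => ha)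
  have hjL : Function.Injective jL := by
    rw [injective_iff_map_eq_zero]
    intro y hy
    obtain ⟨a, rfl⟩ := Ideal.Quotient.mk_surjective y
    have h1 : Θ a = 0 := hy
    exact Ideal.Quotient.eq_zero_iff_mem.mpr h1
  refine ⟨q, jL.comp (valRq q), hjL.comp (valRq_injective q), fun t => ?_⟩
  rw [AlgHom.comp_apply, valRq_ψ, toLq_apply]
  exact (hΘ t).symm

end Factor

/-! ### the weak `(Wpt)` binder -/

section Wne

variable {O : Type} [CommRing O] [IsDomain O] [IsDiscreteValuationRing O]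
  [IsAdicComplete (maximalIdeal O) O] [CharZero O]
  {T : Type} [CommRing T] [IsLocalRing T] [IsNoetherianRing T] [Algebra O T] [Module.Finite O T]
  {Ω : Type*} [Field Ω] [Algebra O Ω] [Module.IsTorsionFree O Ω]
  (ρ : GaloisRepAdic T) {k : ℕ}

/-- **GLUE, output 2 (`hWne`, diamonds shape)**: the weak `(Wpt)` binder of
`unit_field_of_diamonds(_ne)` from B5 at the DVR points of `T`:
`hB5` : at a DVR point `ψ q` with nebentypus of exact order `p` at `r i` and trivial at the other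
`r j`, the representation is not unipotent on inertia at `r i`. -/
theorem hWne_of_not_isUnipotent {p : ℕ} (hp : p.Prime) (hdet : ρ.DetIsCyclotomic p)
    (r : Fin k → ℕ) (hr : ∀ i, (r i).Prime) (hpr : ∀ i, p ≠ r i)
    (P : Fin k → ValuationSubring Qb) (hP : ∀ i, (P i).LiesOverPrime (r i))
    (τ₀ : Fin k → GQ) (hτ₀ : ∀ i, IsTameGenerator (P i) p (τ₀ i))
    (hτD : ∀ i, τ₀ i ∈ (P i).decompositionSubgroup ℚ)
    (hunr : ∀ i, ∀ s ∈ (P i).inertiaSubgroupIn ℚ, ∀ v : ρ.V,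
      ρ.ρ s v - v ∈ maximalIdeal T • (⊤ : Submodule T ρ.V))
    (B : ∀ i, Module.Basis (Fin 2) T ρ.V)
    (χ : ∀ i, Fin 2 → (P i).decompositionSubgroup ℚ →* Tˣ)
    (hχ : ∀ (i : Fin k) (c : Fin 2) (σ : (P i).decompositionSubgroup ℚ),
      ρ.ρ (σ : GQ) (B i c) = (χ i c σ : T) • B i c)
    (c : Fin 2) (x δ : Fin k → T) (hx : ∀ i, x i = (χ i c ⟨τ₀ i, hτD i⟩ : T))
    (hB5 : ∀ (i : Fin k) (q : Idx O T) (hloc : IsLocalHom ((ψ q : T →ₐ[O] Rq q) : T →+* Rq q)),
      ∑ j ∈ range p, ψ q (δ i) ^ j = 0 → (∀ j, i ≠ j → ψ q (δ j) = 1) →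
      ¬ (ρ.baseChangeAlong ((ψ q : T →ₐ[O] Rq q) : T →+* Rq q) hloc).IsUnipotentOnInertiaAt
        (r i)) :
    ∀ i, ∀ θ : T →ₐ[O] Ω, ∑ j ∈ range p, θ (δ i) ^ j = 0 →
      (∀ j, i ≠ j → θ (δ j) = 1) → θ (x i) ≠ 1 := by
  intro i θ hΦ hother h1
  obtain ⟨q, j, hj, hθ⟩ := exists_factor_ψ θ
  have hloc : IsLocalHom ((ψ q : T →ₐ[O] Rq q) : T →+* Rq q) := isLocalHom_ψ q
  have hΦ' : ∑ m ∈ range p, ψ q (δ i) ^ m = 0 := by
    apply hj
    rw [map_zero, map_sum, ← hΦ]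
    refine Finset.sum_congr rfl fun m _ => ?_
    rw [map_pow, hθ]
  have hother' : ∀ j', i ≠ j' → ψ q (δ j') = 1 := by
    intro j' hij
    apply hj
    rw [← hθ, map_one]
    exact hother j' hij
  have hne := chi_ne_one_of_not_isUnipotent ρ (P i) (B i) (χ i) (hχ i) hp (hr i) (hpr i) (hP i)
    hdet (hτ₀ i) (hunr i) ((ψ q : T →ₐ[O] Rq q) : T →+* Rq q) hloc (hB5 i q hloc hΦ' hother')
    (hτD i) c
  apply hne
  apply hj
  rw [map_one, ← h1, hx i]
  exact (hθ _).symm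

/-- **GLUE, output 2 (`hWne`, "occurring" shape of `unit_field_of_points`)**: for a family of
submodules `W i` of a `T`-module `M` (`W i = L.unitSub p hN i`), from B5 at the DVR points of `T`
occurring in `M ⧸ W i`. -/
theorem hWne_occ_of_not_isUnipotent {M : Type*} [AddCommGroup M] [Module O M]
    (a : T →ₐ[O] Module.End O M) (W : Fin k → Submodule O M)
    {p : ℕ} (hp : p.Prime) (hdet : ρ.DetIsCyclotomic p)
    (r : Fin k → ℕ) (hr : ∀ i, (r i).Prime) (hpr : ∀ i, p ≠ r i)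
    (P : Fin k → ValuationSubring Qb) (hP : ∀ i, (P i).LiesOverPrime (r i))
    (τ₀ : Fin k → GQ) (hτ₀ : ∀ i, IsTameGenerator (P i) p (τ₀ i))
    (hτD : ∀ i, τ₀ i ∈ (P i).decompositionSubgroup ℚ)
    (hunr : ∀ i, ∀ s ∈ (P i).inertiaSubgroupIn ℚ, ∀ v : ρ.V,
      ρ.ρ s v - v ∈ maximalIdeal T • (⊤ : Submodule T ρ.V))
    (B : ∀ i, Module.Basis (Fin 2) T ρ.V)
    (χ : ∀ i, Fin 2 → (P i).decompositionSubgroup ℚ →* Tˣ)
    (hχ : ∀ (i : Fin k) (c : Fin 2) (σ : (P i).decompositionSubgroup ℚ),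
      ρ.ρ (σ : GQ) (B i c) = (χ i c σ : T) • B i c)
    (c : Fin 2) (x : Fin k → T) (hx : ∀ i, x i = (χ i c ⟨τ₀ i, hτD i⟩ : T))
    (hB5 : ∀ (i : Fin k) (q : Idx O T) (hloc : IsLocalHom ((ψ q : T →ₐ[O] Rq q) : T →+* Rq q)),
      (∀ t : T, (∀ m, a t m ∈ W i) → ψ q t = 0) →
      ¬ (ρ.baseChangeAlong ((ψ q : T →ₐ[O] Rq q) : T →+* Rq q) hloc).IsUnipotentOnInertiaAt
        (r i)) :
    ∀ i, ∀ θ : T →ₐ[O] Ω, (∀ t : T, (∀ m, a t m ∈ W i) → θ t = 0) → θ (x i) ≠ 1 := by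
  intro i θ hocc h1
  obtain ⟨q, j, hj, hθ⟩ := exists_factor_ψ θ
  have hloc : IsLocalHom ((ψ q : T →ₐ[O] Rq q) : T →+* Rq q) := isLocalHom_ψ q
  have hocc' : ∀ t : T, (∀ m, a t m ∈ W i) → ψ q t = 0 := by
    intro t ht
    apply hj
    rw [map_zero, ← hθ]
    exact hocc t ht
  have hne := chi_ne_one_of_not_isUnipotent ρ (P i) (B i) (χ i) (hχ i) hp (hr i) (hpr i) (hP i)
    hdet (hτ₀ i) (hunr i) ((ψ q : T →ₐ[O] Rq q) : T →+* Rq q) hloc (hB5 i q hloc hocc')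
    (hτD i) c
  apply hne
  apply hj
  rw [map_one, ← h1, hx i]
  exact (hθ _).symm

end Wne

end Fermat.Agent.GB.B5.Glue.Wne
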